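import Mathlib
import Fermat.Prelude.Def_EllipticCurve_ZeroComponentAt
import Fermat.Prelude.Def_FLTPrelim_Ramification
import Fermat.Prelude.Def_ModularCurve_ReductionModL
import Fermat.Prelude.Def_ModularCurve_HeckeModule
import Fermat.Prelude.Def_GaloisRep_ComplexConjugation

/-!
# The inputs of Mazur's argument at prime level

* `classOf`, `IsCuspInf`, `IsCuspZero`: classes of differences of places and the two cusps.
* `ConjBalance`: complex conjugation has large fixed points on idempotent Hecke pieces of
  torsion.
-/

set_option autoImplicit false

noncomputable section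

namespace Fermat.Agent.Mazur

open AlgebraicCurve ModularCurve

local notation "Qbar" => AlgebraicClosure ℚ

open Classical in
/-- The class of `[P] - [Q]` in the divisor class group (zero unless the degrees agree). -/
def classOf {K F : Type*} [Field K] [Field F] [Algebra K F] (P Q : Place K F) : Pic0 K F :=
  if h : P.deg = Q.deg then
    Pic0.mk ⟨Finsupp.single P 1 - Finsupp.single Q 1, by
      rw [Divisor.mem_degZero, map_sub, Divisor.degree_single, Divisor.degree_single, h, sub_self]⟩
  else 0

/-- `P` is the cusp at infinity: its order is the order of the `q`-expansion. -/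
def IsCuspInf {N : ℕ} (P : Place Qbar (modularFunctionFieldBar N)) : Prop :=
  ∀ f : modularFunctionFieldBar N, P.ord f = (f : LaurentSeries Qbar).order

/-- `P` is a pole of `j` other than the cusp at infinity (for prime level: the cusp `0`). -/
def IsCuspZero {N : ℕ} (P : Place Qbar (modularFunctionFieldBar N)) : Prop :=
  (∀ f : modularFunctionFieldBar N, (f : LaurentSeries Qbar) = coeffEmb Qbar jq → P.ord f < 0) ∧
    ¬ IsCuspInf P

/-- On an idempotent Hecke piece of `J₀(N)[e^k]`, complex conjugation fixes at least a square
root of the points. -/
def ConjBalance (N : ℕ) [NeZero N] : Prop :=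
  letI := heckeModuleBar N
  ∀ e k : ℕ, e.Prime → ∀ t : HeckeAlg,
    (∀ x : JZero N, e ^ k • x = 0 → t • t • x = t • x) →
    Nat.card {x : JZero N // e ^ k • x = 0 ∧ t • x = x} ≤
      Nat.card {x : JZero N // (e ^ k • x = 0 ∧ t • x = x) ∧ complexConjugation • x = x} ^ 2

end Fermat.Agent.Mazur
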