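import Fermat.Agent.Mazur.Cusp.Point
import Fermat.Agent.Mazur.Global.Ctx
import Fermat.Agent.Reduction.JZeroInjective
import Fermat.Agent.Reduction.Exists
import Fermat.Agent.Eleven.NoPoint
import Fermat.Agent.Isogeny.Cofixed

/-!
# Mazur's step three

A curve over `ℚ` with a rational point of order `p ≥ 17` that misses the zero component at `2`
and `3` misses it at every multiplicative prime `ℓ ≠ p`.
-/

set_option autoImplicit false

noncomputable section

open AlgebraicCurve ModularCurve WeierstrassCurve WeierstrassCurve.Affine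

namespace Fermat.Agent.Mazur

open Cusp

local notation "Qbar" => AlgebraicClosure ℚ

/-- A prime dividing a non-trivial order gives a point of that exact order and a splitting. -/
theorem exists_prime_split {J : Type*} [AddCommGroup J] {x : J} (hfin : IsOfFinAddOrder x)
    (hx : x ≠ 0) :
    ∃ e v m : ℕ, e.Prime ∧ 0 < v ∧ ¬ e ∣ m ∧ addOrderOf x = e ^ v * m ∧
      addOrderOf ((e ^ (v - 1) * m) • x) = e := by
  have hn1 : addOrderOf x ≠ 1 := fun h => hx (AddMonoid.addOrderOf_eq_one_iff.1 h)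
  have hn0 : addOrderOf x ≠ 0 := hfin.addOrderOf_pos.ne'
  obtain ⟨e, he, hdvd⟩ := Nat.exists_prime_and_dvd hn1
  set v := (addOrderOf x).factorization e with hv
  set m := addOrderOf x / e ^ v with hm
  have hsplit : e ^ v * m = addOrderOf x := Nat.ordProj_mul_ordCompl_eq_self _ _
  have hv0 : 0 < v := he.factorization_pos_of_dvd hn0 hdvd
  refine ⟨e, v, m, he, hv0, Nat.not_dvd_ordCompl he hn0, hsplit.symm, ?_⟩
  have h1 : e ^ (v - 1) * m ∣ addOrderOf x := by
    refine ⟨e, ?_⟩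
    rw [mul_right_comm, ← pow_succ, Nat.sub_add_cancel hv0, hsplit]
  have h2 : e ^ (v - 1) * m ≠ 0 := fun h => by
    rw [h] at h1
    exact hn0 (Nat.eq_zero_of_zero_dvd h1)
  have h3 : addOrderOf x = e * (e ^ (v - 1) * m) := by
    rw [← mul_assoc, ← pow_succ', Nat.sub_add_cancel hv0, hsplit]
  rw [addOrderOf_nsmul' x h2, Nat.gcd_eq_right h1, h3,
    Nat.mul_div_cancel _ (Nat.pos_of_ne_zero h2)]

/-- A torsion class killed by reduction at `2` and at `3` is zero. -/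
theorem eq_zero_of_reduction_two_three {N : ℕ} [NeZero N] (h2N : ¬ 2 ∣ N) (h3N : ¬ 3 ∣ N)
    {A B : ValuationSubring Qbar} (hA : A.LiesOverPrime 2) (hB : B.LiesOverPrime 3) {y : JZero N}
    (hy : IsOfFinAddOrder y) (hA0 : reductionModL A N y = 0) (hB0 : reductionModL B N y = 0) :
    y = 0 := by
  have := Fact.mk Nat.prime_two
  have := Fact.mk Nat.prime_three
  have hn0 : addOrderOf y ≠ 0 := hy.addOrderOf_pos.ne'
  set i := (addOrderOf y).factorization 2
  set n := addOrderOf y / 2 ^ i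
  have h1 : 2 ^ i • y = 0 := by
    refine Reduction.eq_zero_of_reductionModL_eq_zero hA (Reduction.reductionFacts h2N hA)
      (Reduction.reductionInputsModL hA (Reduction.reductionFacts h2N hA))
      (m := n) (Nat.not_dvd_ordCompl Nat.prime_two hn0) ?_ ?_
    · rw [smul_smul, mul_comm, Nat.ordProj_mul_ordCompl_eq_self, addOrderOf_nsmul_eq_zero]
    · rw [map_nsmul, hA0, smul_zero]
  exact Reduction.eq_zero_of_reductionModL_eq_zero hB (Reduction.reductionFacts h3N hB)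
    (Reduction.reductionInputsModL hB (Reduction.reductionFacts h3N hB))
    (m := 2 ^ i) (fun h => by
      have := Nat.le_of_dvd two_pos (Nat.prime_three.dvd_of_dvd_pow h); omega) h1 hB0

/-- Mazur's step three for `p ≥ 17`. -/
theorem not_inZeroComponentAt_of_le {p : ℕ} [Fact p.Prime] (hp : 17 ≤ p)
    (W : WeierstrassCurve ℤ) (hΔ : W.Δ ≠ 0)
    (Q : ((W.map (Int.castRingHom ℚ))⁄Qbar).Point)
    (hQfix : ∀ σ : Qbar ≃ₐ[ℚ] Qbar, σ • Q = Q) (hQord : addOrderOf Q = p)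
    (h2Δ : (2 : ℤ) ∣ W.Δ) (h2c₄ : ¬ (2 : ℤ) ∣ W.c₄)
    (h2 : ∀ A : ValuationSubring Qbar, A.LiesOverPrime 2 → ¬ W.InZeroComponentAt A Q)
    (h3Δ : (3 : ℤ) ∣ W.Δ) (h3c₄ : ¬ (3 : ℤ) ∣ W.c₄)
    (h3 : ∀ A : ValuationSubring Qbar, A.LiesOverPrime 3 → ¬ W.InZeroComponentAt A Q)
    {ℓ : ℕ} (hℓ : ℓ.Prime) (hℓp : ℓ ≠ p) (hℓΔ : (ℓ : ℤ) ∣ W.Δ) (hℓc₄ : ¬ (ℓ : ℤ) ∣ W.c₄)
    (A : ValuationSubring Qbar) (hA : A.LiesOverPrime ℓ) :
    ¬ W.InZeroComponentAt A Q := by
  rcases eq_or_ne ℓ 2 with rfl | hℓ2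
  · exact h2 A hA
  rcases eq_or_ne ℓ 3 with rfl | hℓ3
  · exact h3 A hA
  have hℓ5 : 5 ≤ ℓ := by
    have h4 : ℓ ≠ 4 := fun h => by rw [h] at hℓ; norm_num at hℓ
    have := hℓ.two_le
    omega
  intro hin
  have hpp : p.Prime := Fact.out
  have : NeZero p := ⟨hpp.ne_zero⟩
  have hnd : ∀ q : ℕ, q.Prime → q ≠ p → ¬ q ∣ p := fun q hq hne hd =>
    hne ((Nat.prime_dvd_prime_iff_eq hq hpp).1 hd)
  obtain ⟨cI, cZ, hI, hZ⟩ := exists_cusps (p := p)
  obtain ⟨x, hxfix, hxred⟩ := exists_moduli_place hp W hΔ ⟨2, Nat.prime_two, h2Δ, h2c₄⟩ Q hQfix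
    hQord hI hZ
  set D := classOf cZ cI with hD
  have hDfin : IsOfFinAddOrder D :=
    isOfFinAddOrder_iff_nsmul_eq_zero.2 ⟨p - 1, by omega, nsmul_cuspClass hI hZ⟩
  obtain ⟨e, v, m, he, hv, hem, hn, hwo⟩ := exists_prime_split hDfin (cuspClass_ne_zero hp hI hZ)
  have := Fact.mk he
  have hnp : e ^ v * m ∣ p - 1 := hn ▸ addOrderOf_dvd_of_nsmul_eq_zero (nsmul_cuspClass hI hZ)
  have hpe : p ≠ e := fun h => by
    have h1 : e ∣ p - 1 := ((dvd_pow_self e hv.ne').trans (dvd_mul_right _ m)).trans hnp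
    have := Nat.le_of_dvd (by omega) h1
    omega
  have hDfix : ∀ σ : Qbar ≃ₐ[ℚ] Qbar, σ • D = D := fun σ => smul_cuspClass σ hI hZ
  have hfixn : ∀ (k : ℕ) (σ : Qbar ≃ₐ[ℚ] Qbar), σ • k • D = k • D := fun k σ => by
    rw [smul_nsmul_comm, hDfix]
  obtain ⟨t, ht, hta⟩ := exists_torsion_eisenstein p e hpp hpe (hfixn _) hwo
  let := goodModule p e
  set a := classOf x cI
  set b := classOf x cZ
  have hab : b + D = a := classOf_add x cZ cI
  have hytors : IsOfFinAddOrder (t • b) := by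
    have h1 : t • b = t • a + -(t • D) := by rw [← hab, smul_add]; abel
    rw [h1]
    refine (AddCommute.all _ _).isOfFinAddOrder_add (hta a hxfix) (IsOfFinAddOrder.neg ?_)
    exact isOfFinAddOrder_iff_nsmul_eq_zero.2
      ⟨p - 1, by omega, by rw [← smul_comm t (p - 1) D, nsmul_cuspClass hI hZ, smul_zero]⟩
  have hnull : ∀ (q : ℕ), q.Prime → q ≠ p → ∀ (B : ValuationSubring Qbar), B.LiesOverPrime q →
      ∀ (h : ReductionInputsModL B p) (z : JZero p), z ∈ nullClasses h →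
        reductionModL B p (t • z) = 0 := by
    intro q hq hqp B hB h z hz
    have := Fact.mk hq
    exact reductionModL_eq_zero_of_mem (rename_smul_mem (hnd q hq hqp) hB
      (fun i : GoodPrimes p e => i.1) (fun i hd => i.2 (hd.trans (dvd_mul_right p e))) t hz)
  obtain ⟨A₂, -, hA₂, -⟩ := Frobenius.exists_liesOverPrime_and_isFrobeniusAt_qbar Nat.prime_two
  obtain ⟨A₃, -, hA₃, -⟩ := Frobenius.exists_liesOverPrime_and_isFrobeniusAt_qbar Nat.prime_three
  have hI2 : ReductionInputsModL A₂ p :=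
    haveI := Fact.mk Nat.prime_two
    Reduction.reductionInputsModL hA₂ (Reduction.reductionFacts (hnd 2 Nat.prime_two (by omega)) hA₂)
  have hI3 : ReductionInputsModL A₃ p :=
    haveI := Fact.mk Nat.prime_three
    Reduction.reductionInputsModL hA₃
      (Reduction.reductionFacts (hnd 3 Nat.prime_three (by omega)) hA₃)
  have hy : t • b = 0 :=
    eq_zero_of_reduction_two_three (hnd 2 Nat.prime_two (by omega))
      (hnd 3 Nat.prime_three (by omega)) hA₂ hA₃ hytors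
      (hnull 2 Nat.prime_two (by omega) A₂ hA₂ hI2 b
        ((hxred 2 Nat.prime_two (by omega) h2Δ h2c₄ A₂ hA₂ hI2).1 (h2 A₂ hA₂)))
      (hnull 3 Nat.prime_three (by omega) A₃ hA₃ hI3 b
        ((hxred 3 Nat.prime_three (by omega) h3Δ h3c₄ A₃ hA₃ hI3).1 (h3 A₃ hA₃)))
  -- at `ℓ`
  have := Fact.mk hℓ
  have hF := Reduction.reductionFacts (hnd ℓ hℓ hℓp) hA
  have hIl := Reduction.reductionInputsModL hA hF
  have hred : reductionModL A p (t • D) = 0 := by
    rw [show t • D = t • a by rw [← hab, smul_add, hy, zero_add]]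
    exact hnull ℓ hℓ hℓp A hA hIl a ((hxred ℓ hℓ hℓp hℓΔ hℓc₄ A hA hIl).2 hin)
  set z := m • D with hz
  have hzkill : e ^ v • z = 0 := by
    rw [hz, smul_smul, ← hn, addOrderOf_nsmul_eq_zero]
  have htz : t • z = eisInt p e t • z := good_smul_eq_eisInt p e (hfixn m) hzkill t
  have hc : IsCoprime (eisInt p e t) ((e ^ v : ℕ) : ℤ) := by
    rw [Nat.cast_pow]
    refine IsCoprime.pow_right ?_
    rw [Int.isCoprime_iff_gcd_eq_one, Int.gcd_comm, Int.gcd_def, Int.natAbs_natCast]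
    refine he.coprime_iff_not_dvd.2 fun hd => ?_
    have h0 : eisMod p e t = 0 := by
      show ((eisInt p e t : ℤ) : ZMod e) = 0
      rw [ZMod.intCast_zmod_eq_zero_iff_dvd]
      exact Int.natCast_dvd.2 hd
    exact one_ne_zero (ht.symm.trans h0)
  have hredz : reductionModL A p z = 0 := by
    obtain ⟨α, β, hαβ⟩ := hc
    have h1 : reductionModL A p (eisInt p e t • z) = 0 := by
      rw [← htz, hz, smul_comm, map_nsmul, hred, smul_zero]
    rw [← one_zsmul z, ← hαβ, add_zsmul, mul_zsmul, mul_zsmul, natCast_zsmul, hzkill, smul_zero,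
      add_zero, map_zsmul, h1, smul_zero]
  rcases eq_or_ne ℓ e with hle | hle
  · refine reductionModL_cuspClass_ne_zero hℓ hℓ5 hℓp hA (j := m) ?_ hI hZ hredz
    rw [hle]
    exact (Nat.mul_dvd_mul_right (dvd_pow_self e hv.ne') m).trans hnp
  · have hz0 : z = 0 := Reduction.eq_zero_of_reductionModL_eq_zero hA hF hIl
      (m := e ^ v) (fun h => hle ((Nat.prime_dvd_prime_iff_eq hℓ he).1 (hℓ.dvd_of_dvd_pow h)))
      hzkill hredz
    have h1 : e ^ v * m ∣ m := hn ▸ addOrderOf_dvd_of_nsmul_eq_zero hz0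
    exact hem (((dvd_pow_self e hv.ne').trans (dvd_mul_right _ m)).trans h1)

/-- Mazur's step three. -/
theorem not_inZeroComponentAt {p : ℕ} (hp : p.Prime) (hp' : p ∉ ({2, 3, 5, 7, 13} : Finset ℕ))
    (W : WeierstrassCurve ℤ) (hΔ : W.Δ ≠ 0)
    (Q : ((W.map (Int.castRingHom ℚ))⁄Qbar).Point)
    (hQfix : ∀ σ : Qbar ≃ₐ[ℚ] Qbar, σ • Q = Q) (hQord : addOrderOf Q = p)
    (h2Δ : (2 : ℤ) ∣ W.Δ) (h2c₄ : ¬ (2 : ℤ) ∣ W.c₄)
    (h2 : ∀ A : ValuationSubring Qbar, A.LiesOverPrime 2 → ¬ W.InZeroComponentAt A Q)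
    (h3Δ : (3 : ℤ) ∣ W.Δ) (h3c₄ : ¬ (3 : ℤ) ∣ W.c₄)
    (h3 : ∀ A : ValuationSubring Qbar, A.LiesOverPrime 3 → ¬ W.InZeroComponentAt A Q)
    {ℓ : ℕ} (hℓ : ℓ.Prime) (hℓp : ℓ ≠ p) (hℓΔ : (ℓ : ℤ) ∣ W.Δ) (hℓc₄ : ¬ (ℓ : ℤ) ∣ W.c₄)
    (A : ValuationSubring Qbar) (hA : A.LiesOverPrime ℓ) :
    ¬ W.InZeroComponentAt A Q := by
  have := Fact.mk hp
  rcases eq_or_ne p 11 with h11 | h11
  · exfalso
    have : (W.map (Int.castRingHom ℚ)).IsElliptic := by
      constructor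
      rw [WeierstrassCurve.map_Δ, eq_intCast, isUnit_iff_ne_zero, Int.cast_ne_zero]
      exact hΔ
    obtain ⟨P, hP⟩ := Isogeny.exists_baseChange_eq_of_fixed (W.map (Int.castRingHom ℚ)) Q hQfix
    rw [← hP, addOrderOf_injective _ (Point.map_injective (Algebra.ofId ℚ Qbar)), h11] at hQord
    exact Eleven.addOrderOf_ne_eleven (W.map (Int.castRingHom ℚ)) P hQord
  · refine not_inZeroComponentAt_of_le ?_ W hΔ Q hQfix hQord h2Δ h2c₄ h2 h3Δ h3c₄ h3 hℓ hℓp
      hℓΔ hℓc₄ A hA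
    simp only [Finset.mem_insert, Finset.mem_singleton, not_or] at hp'
    by_contra hlt
    push Not at hlt
    interval_cases p <;> first | omega | norm_num at hp

end Fermat.Agent.Mazur
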