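import Fermat.Agent.Mazur.Inputs
import Fermat.Agent.Mazur.Moduli.Elliptic
import Fermat.Agent.Mazur.Moduli.Reduce

/-!
# Values of functions at the moduli point

Values at a place of a function multiplied by powers of the inverse of `j`; this gathers the
existence of the moduli place (`Moduli/Elliptic`) and its reduction (`Moduli/Reduce`).
-/

set_option autoImplicit false

noncomputable section

open AlgebraicCurve

namespace Fermat.Agent.Mazur.Moduli

open Fermat.Agent.FunctionFieldRR (VanishesTo)
section Place

variable {K F : Type*} [Field K] [Field F] [Algebra K F] {P : Place K F}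

theorem vanishesTo_pow {a : F} (ha : VanishesTo P 0 a) :
    ∀ n : ℕ, VanishesTo P 0 (a ^ n)
  | 0 => by rw [pow_zero]; exact Or.inr P.ord_one.ge
  | n + 1 => by rw [pow_succ]; simpa using (vanishesTo_pow ha n).mul ha

theorem vanishesTo_pow_sub_pow {a b : F} (ha : VanishesTo P 0 a) (hb : VanishesTo P 0 b)
    (h : VanishesTo P 1 (a - b)) : ∀ n : ℕ, VanishesTo P 1 (a ^ n - b ^ n)
  | 0 => Or.inl (by simp)
  | n + 1 => by
    have h1 : VanishesTo P 1 (a ^ n * (a - b)) := by
      simpa using (vanishesTo_pow ha n).mul h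
    have h2 : VanishesTo P 1 ((a ^ n - b ^ n) * b) := by
      simpa using (vanishesTo_pow_sub_pow ha hb h n).mul hb
    convert h1.add h2 using 1
    ring

/-- Values may be divided by powers of a function with a nonzero value. -/
theorem vanishesTo_mul_inv_pow {G j : F} {g c : K} (hc : c ≠ 0)
    (hj : 0 < P.ord (j - algebraMap K F c)) (hG : VanishesTo P 1 (G - algebraMap K F g)) (n : ℕ) :
    VanishesTo P 1 (G * j⁻¹ ^ n - algebraMap K F (g * c⁻¹ ^ n)) := by
  have hc' : algebraMap K F c ≠ 0 := by simpa using hc
  have hjo : P.ord j = 0 := by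
    have h1 := FunctionFieldRR.ord_add_eq_of_lt (P := P) (f := algebraMap K F c)
      (g := j - algebraMap K F c) hc' (by rw [FunctionFieldRR.ord_algebraMap]; exact hj)
    rwa [add_sub_cancel, FunctionFieldRR.ord_algebraMap] at h1
  have ha : VanishesTo P 0 j⁻¹ := Or.inr (by rw [P.ord_inv]; omega)
  have hb : VanishesTo P 0 (algebraMap K F c⁻¹) := FunctionFieldRR.vanishesTo_algebraMap _
  have hab : VanishesTo P 1 (j⁻¹ - algebraMap K F c⁻¹) := by
    rcases eq_or_ne j 0 with rfl | hj0
    · rw [zero_sub, FunctionFieldRR.ord_neg, FunctionFieldRR.ord_algebraMap] at hj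
      omega
    have h : VanishesTo P 1 (-(j - algebraMap K F c) * (j⁻¹ * algebraMap K F c⁻¹)) := by
      simpa using (VanishesTo.neg (Or.inr (by omega) : VanishesTo P 1 (j - algebraMap K F c))).mul
        (ha.mul hb)
    convert h using 1
    rw [map_inv₀]
    field_simp
    ring
  have h1 : VanishesTo P 1 ((G - algebraMap K F g) * j⁻¹ ^ n) := by
    simpa using hG.mul (vanishesTo_pow ha n)
  have h2 : VanishesTo P 1 (algebraMap K F g * (j⁻¹ ^ n - algebraMap K F c⁻¹ ^ n)) := by
    simpa using (FunctionFieldRR.vanishesTo_algebraMap (P := P) g).mul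
      (vanishesTo_pow_sub_pow ha hb hab n)
  convert h1.add h2 using 1
  rw [map_mul, map_pow]
  ring

end Place

end Fermat.Agent.Mazur.Moduli

end
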